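/-
Programme I, D-Pet ('T reduced' via Petersson), node (Pet-IP), part 1: the weighted integral,
Mathlib-only.

* `petInt μ χ φ := ∫ x, φ x * (χ x).toReal ∂μ` : the weighted integral of a complex function against a
  function `χ : X → ℝ≥0∞` (in the applications an orbit weight, `PetUnfold.IsWeight Δ χ`);
* `integrable_mul_weight` : bounded a.e.-strongly-measurable `φ`, finite mass `∫⁻ χ < ⊤` ⟹ integrable;
* `petInt_add`, `petInt_smul`, `petInt_conj`, `petInt_congr`.
-/
import Mathlib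

set_option autoImplicit false

noncomputable section

namespace Fermat.Agent.FF3.PetIP

open MeasureTheory
open scoped ENNReal ComplexConjugate

variable {X : Type*} [MeasurableSpace X] (μ : Measure X)

/-- The weighted integral `∫ φ χ dμ`. -/
def petInt (χ : X → ℝ≥0∞) (φ : X → ℂ) : ℂ := ∫ x, φ x * ((χ x).toReal : ℂ) ∂μ

section Integrable

variable {μ} {χ : X → ℝ≥0∞}

theorem integrable_weight (hχm : Measurable χ) (hχ : ∫⁻ x, χ x ∂μ < ⊤) :
    Integrable (fun x => ((χ x).toReal : ℂ)) μ :=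
  (integrable_toReal_of_lintegral_ne_top hχm.aemeasurable hχ.ne).ofReal

/-- A bounded function times a weight of finite mass is integrable. -/
theorem integrable_mul_weight (hχm : Measurable χ) (hχ : ∫⁻ x, χ x ∂μ < ⊤) {φ : X → ℂ}
    (hφm : AEStronglyMeasurable φ μ) {C : ℝ} (hφ : ∀ x, ‖φ x‖ ≤ C) :
    Integrable (fun x => φ x * ((χ x).toReal : ℂ)) μ :=
  (integrable_weight hχm hχ).bdd_mul hφm (Filter.Eventually.of_forall hφ)

theorem petInt_add (hχm : Measurable χ) (hχ : ∫⁻ x, χ x ∂μ < ⊤) {φ ψ : X → ℂ}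
    (hφm : AEStronglyMeasurable φ μ) {C : ℝ} (hφ : ∀ x, ‖φ x‖ ≤ C)
    (hψm : AEStronglyMeasurable ψ μ) {C' : ℝ} (hψ : ∀ x, ‖ψ x‖ ≤ C') :
    petInt μ χ (φ + ψ) = petInt μ χ φ + petInt μ χ ψ := by
  unfold petInt
  rw [← integral_add (integrable_mul_weight hχm hχ hφm hφ) (integrable_mul_weight hχm hχ hψm hψ)]
  congr 1
  ext x
  simp only [Pi.add_apply]
  ring

theorem petInt_smul (c : ℂ) (φ : X → ℂ) : petInt μ χ (c • φ) = c * petInt μ χ φ := by
  unfold petInt
  rw [← integral_const_mul]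
  congr 1
  ext x
  simp only [Pi.smul_apply, smul_eq_mul]
  ring

theorem petInt_conj (φ : X → ℂ) : petInt μ χ (fun x => conj (φ x)) = conj (petInt μ χ φ) := by
  unfold petInt
  rw [← integral_conj]
  congr 1
  ext x
  simp

theorem petInt_congr {φ ψ : X → ℂ} (h : ∀ x, φ x = ψ x) : petInt μ χ φ = petInt μ χ ψ := by
  unfold petInt
  congr 1
  ext x
  rw [h]

end Integrable

end Fermat.Agent.FF3.PetIP
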