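/-
Programme I, D-Pet ('T reduced' via Petersson), node (Pet-IP), part 2: the Petersson product of
cusp forms defined from an orbit weight (helper28's `PetUnfold.IsWeight`).

`Γ : Subgroup (GL (Fin 2) ℝ)`, `χ : ℍ → ℝ≥0∞` a `Γ`-weight (`PetUnfold.IsWeight Γ χ`: measurable and
`∑' δ : Γ, χ ((δ : GL (Fin 2) ℝ) • τ) = 1` for every `τ`) of finite mass `∫⁻ τ, χ τ < ⊤`.
* `pet k χ f g := ∫ τ, petersson k f g τ * (χ τ).toReal` (conjugate-linear in `f`, linear in `g`);
* `integrable_petersson_mul_weight` : for cusp forms of level `Γ` (arithmetic);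
* `pet_add_left`, `pet_add_right`, `pet_smul_right`, `pet_smul_left`, `pet_conj_symm`;
* `pet_self_eq_ofReal` : `pet k χ f f = ↑(∫ τ, ‖petersson k f f τ‖ * (χ τ).toReal)`;
* `ae_eq_zero_of_integral_mul_weight_eq_zero` (abstract, real-valued form of positivity);
* `eq_zero_of_pet_self_eq_zero` : **definiteness**: `pet k χ f f = 0 → f = 0`
  (needs `(volume : Measure ℍ).IsOpenPosMeasure` as an instance argument: `PetFD.OpenPos`);
* `pet_eq_of_isWeight` : **independence of the weight** (for `Γ` of determinant one).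
-/
import Mathlib
import Fermat.Agent.FF3.PetUnfold.Comm
import Fermat.Agent.FF3.PetFD.Weight
import Fermat.Agent.FF3.PetIP.Weight

set_option autoImplicit false

noncomputable section

namespace Fermat.Agent.FF3.PetIP

open MeasureTheory UpperHalfPlane
open Fermat.Agent.FF3.PetUnfold (IsWeight)
open scoped ENNReal ComplexConjugate ModularForm MatrixGroups

/-- The Petersson product of two functions on `ℍ` with respect to the weight `χ`. -/
def pet (k : ℤ) (χ : ℍ → ℝ≥0∞) (f g : ℍ → ℂ) : ℂ := petInt volume χ (petersson k f g)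

section Abstract

variable {G X : Type*} [Group G] [MulAction G X] [MeasurableSpace X] {μ : Measure X}
  [MeasurableConstSMul G X] [SMulInvariantMeasure G X μ]

/-- **Positivity (abstract, real-valued form).** -/
theorem ae_eq_zero_of_integral_mul_weight_eq_zero (Δ : Subgroup G) [Countable Δ] {χ : X → ℝ≥0∞}
    (hχ : IsWeight Δ χ) (hχfin : ∫⁻ x, χ x ∂μ < ⊤) {ψ : X → ℝ} (hψm : Measurable ψ)
    (hψ0 : ∀ x, 0 ≤ ψ x) (hψ : ∀ δ ∈ Δ, ∀ x, ψ (δ • x) = ψ x)
    (hint : Integrable (fun x => ψ x * (χ x).toReal) μ)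
    (h0 : ∫ x, ψ x * (χ x).toReal ∂μ = 0) : ψ =ᵐ[μ] 0 := by
  have hfin : ∀ᵐ x ∂μ, χ x < ⊤ := ae_lt_top hχ.measurable hχfin.ne
  have hnn : 0 ≤ᵐ[μ] fun x => ψ x * (χ x).toReal :=
    Filter.Eventually.of_forall fun x => mul_nonneg (hψ0 x) ENNReal.toReal_nonneg
  have h1 : ∫⁻ x, ENNReal.ofReal (ψ x * (χ x).toReal) ∂μ = 0 := by
    rw [← ofReal_integral_eq_lintegral_ofReal hint hnn, h0, ENNReal.ofReal_zero]
  have h2 : ∫⁻ x, ENNReal.ofReal (ψ x) * χ x ∂μ = 0 := by
    rw [← h1]
    refine lintegral_congr_ae ?_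
    filter_upwards [hfin] with x hx
    rw [ENNReal.ofReal_mul (hψ0 x), ENNReal.ofReal_toReal hx.ne]
  have h3 := PetUnfold.ae_eq_zero_of_lintegral_mul_eq_zero (μ := μ) Δ
    (φ := fun x => ENNReal.ofReal (ψ x)) (ENNReal.measurable_ofReal.comp hψm)
    (fun δ hδ x => by rw [hψ δ hδ]) hχ h2
  filter_upwards [h3] with x hx
  have : ψ x ≤ 0 := ENNReal.ofReal_eq_zero.mp hx
  exact le_antisymm this (hψ0 x)

end Abstract

section Countable

open Matrix.SpecialLinearGroup

/-- The image of `SL(2, ℤ)` in `GL(2, ℝ)` is countable. -/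
theorem countable_SL : Countable ↥(𝒮ℒ) :=
  Countable.of_equiv _
    (MonoidHom.ofInjective (f := (mapGL ℝ : SL(2, ℤ) →* GL (Fin 2) ℝ)) mapGL_injective).toEquiv

/-- An arithmetic subgroup of `GL(2, ℝ)` is countable. -/
theorem countable_of_isArithmetic (Γ : Subgroup (GL (Fin 2) ℝ)) [Γ.IsArithmetic] :
    Countable ↥Γ := by
  have hc : Subgroup.Commensurable Γ 𝒮ℒ := Subgroup.IsArithmetic.is_commensurable
  have hn : (Γ ⊓ 𝒮ℒ).relIndex Γ ≠ 0 := by rw [Subgroup.inf_relIndex_left]; exact hc.2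
  have := PetUnfold.finite_quotient_of_relIndex_ne_zero hn
  have := countable_SL
  have : Countable ↥(Γ ⊓ 𝒮ℒ) := PetUnfold.countable_of_le inf_le_right
  exact Countable.of_equiv _ (PetUnfold.cosetEquiv (Δ' := Γ ⊓ 𝒮ℒ) (Δ := Γ) inf_le_left)

end Countable

section Forms

variable {k : ℤ} {Γ : Subgroup (GL (Fin 2) ℝ)} {F F' : Type*} [FunLike F ℍ ℂ] [FunLike F' ℍ ℂ]
  {χ : ℍ → ℝ≥0∞}

theorem pet_def (k : ℤ) (χ : ℍ → ℝ≥0∞) (f g : ℍ → ℂ) :
    pet k χ f g = ∫ τ, petersson k f g τ * ((χ τ).toReal : ℂ) := rfl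

theorem petersson_add_left (k : ℤ) (f f' g : ℍ → ℂ) :
    petersson k (f + f') g = petersson k f g + petersson k f' g := by
  ext τ
  simp only [petersson, Pi.add_apply, map_add]
  ring

theorem petersson_add_right (k : ℤ) (f g g' : ℍ → ℂ) :
    petersson k f (g + g') = petersson k f g + petersson k f g' := by
  ext τ
  simp only [petersson, Pi.add_apply]
  ring

theorem petersson_smul_right (k : ℤ) (c : ℂ) (f g : ℍ → ℂ) :
    petersson k f (c • g) = c • petersson k f g := by
  ext τ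
  simp only [petersson, Pi.smul_apply, smul_eq_mul]
  ring

theorem petersson_smul_left (k : ℤ) (c : ℂ) (f g : ℍ → ℂ) :
    petersson k (c • f) g = conj c • petersson k f g := by
  ext τ
  simp only [petersson, Pi.smul_apply, smul_eq_mul, map_mul]
  ring

variable (Γ) [Γ.IsArithmetic] [CuspFormClass F Γ k] [CuspFormClass F' Γ k]
include Γ

omit [Γ.IsArithmetic] in
theorem continuous_petersson (f : F) (g : F') : Continuous (petersson k f g) :=
  petersson_continuous k (ModularFormClass.continuous f) (ModularFormClass.continuous g)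

/-- **Integrability**: for cusp forms the Petersson integrand times a weight of finite mass is
integrable. -/
theorem integrable_petersson_mul_weight (hχm : Measurable χ) (hχ : ∫⁻ τ, χ τ < ⊤) (f : F)
    (g : F') : Integrable (fun τ => petersson k f g τ * ((χ τ).toReal : ℂ)) := by
  obtain ⟨C, hC⟩ := CuspFormClass.petersson_bounded_left k Γ f g
  exact integrable_mul_weight hχm hχ (continuous_petersson Γ f g).aestronglyMeasurable hC

variable {F'' : Type*} [FunLike F'' ℍ ℂ] [CuspFormClass F'' Γ k]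

theorem pet_add_left (hχm : Measurable χ) (hχ : ∫⁻ τ, χ τ < ⊤) (f : F) (f' : F') (g : F'') :
    pet k χ (⇑f + ⇑f') g = pet k χ f g + pet k χ f' g := by
  obtain ⟨C, hC⟩ := CuspFormClass.petersson_bounded_left k Γ f g
  obtain ⟨C', hC'⟩ := CuspFormClass.petersson_bounded_left k Γ f' g
  rw [pet, petersson_add_left]
  exact petInt_add hχm hχ (continuous_petersson Γ f g).aestronglyMeasurable hC
    (continuous_petersson Γ f' g).aestronglyMeasurable hC'

theorem pet_add_right (hχm : Measurable χ) (hχ : ∫⁻ τ, χ τ < ⊤) (f : F) (g : F') (g' : F'') :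
    pet k χ f (⇑g + ⇑g') = pet k χ f g + pet k χ f g' := by
  obtain ⟨C, hC⟩ := CuspFormClass.petersson_bounded_left k Γ f g
  obtain ⟨C', hC'⟩ := CuspFormClass.petersson_bounded_left k Γ f g'
  rw [pet, petersson_add_right]
  exact petInt_add hχm hχ (continuous_petersson Γ f g).aestronglyMeasurable hC
    (continuous_petersson Γ f g').aestronglyMeasurable hC'

omit Γ [Γ.IsArithmetic] [CuspFormClass F Γ k] [CuspFormClass F' Γ k] [CuspFormClass F'' Γ k] in
theorem pet_smul_right (c : ℂ) (f g : ℍ → ℂ) : pet k χ f (c • g) = c * pet k χ f g := by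
  rw [pet, petersson_smul_right]
  exact petInt_smul c _

omit Γ [Γ.IsArithmetic] [CuspFormClass F Γ k] [CuspFormClass F' Γ k] [CuspFormClass F'' Γ k] in
theorem pet_smul_left (c : ℂ) (f g : ℍ → ℂ) : pet k χ (c • f) g = conj c * pet k χ f g := by
  rw [pet, petersson_smul_left]
  exact petInt_smul (conj c) _

omit Γ [Γ.IsArithmetic] [CuspFormClass F Γ k] [CuspFormClass F' Γ k] [CuspFormClass F'' Γ k] in
theorem pet_conj_symm (f g : ℍ → ℂ) : pet k χ g f = conj (pet k χ f g) := by
  rw [pet, pet, ← petInt_conj]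
  exact petInt_congr fun τ => petersson_symm k f g τ

omit Γ [Γ.IsArithmetic] [CuspFormClass F Γ k] [CuspFormClass F' Γ k] [CuspFormClass F'' Γ k] in
theorem petersson_self_eq_ofReal (f : ℍ → ℂ) (τ : ℍ) :
    petersson k f f τ = ((‖petersson k f f τ‖ : ℝ) : ℂ) := by
  have h : petersson k f f τ = ((‖f τ‖ ^ 2 * τ.im ^ k : ℝ) : ℂ) := by
    rw [petersson, Complex.conj_mul']
    push_cast
    ring
  have hnn : 0 ≤ ‖f τ‖ ^ 2 * τ.im ^ k := mul_nonneg (sq_nonneg _) (zpow_nonneg τ.im_pos.le k)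
  rw [h, Complex.norm_real, Real.norm_of_nonneg hnn]

omit Γ [Γ.IsArithmetic] [CuspFormClass F Γ k] [CuspFormClass F' Γ k] [CuspFormClass F'' Γ k] in
/-- `pet f f` is the (real, nonnegative) integral of `‖petersson k f f‖` against the weight. -/
theorem pet_self_eq_ofReal (f : ℍ → ℂ) :
    pet k χ f f = ((∫ τ, ‖petersson k f f τ‖ * (χ τ).toReal : ℝ) : ℂ) := by
  rw [pet_def, ← integral_complex_ofReal]
  congr 1
  ext τ
  push_cast
  rw [← petersson_self_eq_ofReal f τ]

/-- **Definiteness**: `pet k χ f f = 0 → f = 0` for a cusp form of level `Γ` and a `Γ`-weight `χ` of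
finite mass. -/
theorem eq_zero_of_pet_self_eq_zero [(volume : Measure ℍ).IsOpenPosMeasure]
    (hχ : IsWeight Γ χ) (hχfin : ∫⁻ τ, χ τ < ⊤) (f : F) (h0 : pet k χ f f = 0) :
    ∀ τ, f τ = 0 := by
  have := countable_of_isArithmetic Γ
  set ψ : ℍ → ℝ := fun τ => ‖petersson k f f τ‖ with hψdef
  have hψc : Continuous ψ := continuous_norm.comp (continuous_petersson Γ f f)
  have hint : Integrable (fun τ => ψ τ * (χ τ).toReal) := by
    have := (integrable_petersson_mul_weight Γ hχ.measurable hχfin f f).norm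
    refine this.congr (Filter.Eventually.of_forall fun τ => ?_)
    simp only [norm_mul, Complex.norm_real, Real.norm_of_nonneg ENNReal.toReal_nonneg, hψdef]
  have h1 : ∫ τ, ψ τ * (χ τ).toReal = 0 := by
    rw [pet_self_eq_ofReal] at h0
    exact_mod_cast h0
  have hae : ψ =ᵐ[volume] 0 :=
    ae_eq_zero_of_integral_mul_weight_eq_zero (μ := (volume : Measure ℍ)) Γ hχ hχfin
      hψc.measurable (fun τ => norm_nonneg _)
      (fun δ hδ τ => SlashInvariantFormClass.norm_petersson_smul (f := f) (f' := f) hδ) hint h1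
  have hzero : ψ = 0 := (Continuous.ae_eq_iff_eq volume hψc continuous_const).mp hae
  intro τ
  have h2 : petersson k f f τ = 0 := norm_eq_zero.mp (congrFun hzero τ)
  rw [petersson, mul_eq_zero, mul_eq_zero] at h2
  rcases h2 with (h | h) | h
  · exact (map_eq_zero _).mp h
  · exact h
  · exact absurd h (zpow_ne_zero k (by exact_mod_cast τ.im_ne_zero))

/-- **Independence of the weight**: for `Γ` of determinant one, `pet k χ f g` is the same for all
`Γ`-weights `χ` of finite mass. -/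
theorem pet_eq_of_isWeight [Γ.HasDetOne] {χ₁ χ₂ : ℍ → ℝ≥0∞} (h₁ : IsWeight Γ χ₁)
    (h₂ : IsWeight Γ χ₂) (hfin₁ : ∫⁻ τ, χ₁ τ < ⊤) (hfin₂ : ∫⁻ τ, χ₂ τ < ⊤) (f : F) (g : F') :
    pet k χ₁ f g = pet k χ₂ f g := by
  have := countable_of_isArithmetic Γ
  obtain ⟨C, hC⟩ := CuspFormClass.petersson_bounded_left k Γ f g
  exact PetUnfold.integral_mul_toReal_eq (μ := (volume : Measure ℍ)) Γ
    (continuous_petersson Γ f g).aestronglyMeasurable hC
    (fun δ hδ τ => SlashInvariantFormClass.petersson_smul (f := f) (f' := g) hδ)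
    h₁ h₂ hfin₁.ne hfin₂.ne

end Forms

end Fermat.Agent.FF3.PetIP
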