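/-
Programme I, D-Pet ('T reduced' via Petersson), node (Pet-IP), part 3: weights of arithmetic groups
and the Petersson form on `CuspForm Γ k`.

* `isWeight_map_iff`, `isWeight_SL_iff` : for `Γ' ≤ SL(2, ℤ)` a weight of the image of `Γ'` in
  `GL (Fin 2) ℝ` is the same as a measurable `χ` with `∑' γ : Γ', χ (γ • τ) = 1`;
* `isWeight_chi0 : IsWeight 𝒮ℒ PetFD.chi0` (helper2's weight of the modular group);
* `exists_isWeight Γ` : every arithmetic `Γ` has a weight of finite mass; `weightOf Γ` is a choice of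
  one (`isWeight_weightOf`, `lintegral_weightOf_lt_top`);
* `petForm Γ k χ : CuspForm Γ k → CuspForm Γ k → ℂ` (= `pet k χ`), `petForm_add_left`,
  `petForm_add_right`, `petForm_smul_right`, `petForm_smul_left`, `petForm_conj_symm`,
  `petForm_self_eq_zero`, `petForm_eq_of_isWeight`;
* `petArith Γ k := petForm Γ k (weightOf Γ)` : **the** Petersson form of an arithmetic group, with
  `petArith_add_left`, `petArith_add_right`, `petArith_smul_right`, `petArith_smul_left`,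
  `petArith_conj_symm`, `petArith_self_eq_zero` (= the fields `add_left`, `add_right`, `definite` of
  helper9's `PeterssonData` for `Γ = Γ₀(N)`, `k = 2`) and `petArith_eq_pet` (any weight computes it).
-/
import Mathlib
import Fermat.Agent.FF3.PetUnfold.Comm
import Fermat.Agent.FF3.PetFD.OpenPos
import Fermat.Agent.FF3.PetFD.Volume
import Fermat.Agent.FF3.PetIP.Forms

set_option autoImplicit false

noncomputable section

namespace Fermat.Agent.FF3.PetIP

open MeasureTheory UpperHalfPlane Matrix.SpecialLinearGroup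
open Fermat.Agent.FF3.PetUnfold (IsWeight)
open scoped ENNReal ComplexConjugate ModularForm MatrixGroups

section Converters

variable {χ : ℍ → ℝ≥0∞}

/-- The sum over the image of `Γ' ≤ SL(2, ℤ)` in `GL (Fin 2) ℝ` is the sum over `Γ'`. -/
theorem tsum_map_eq (Γ' : Subgroup SL(2, ℤ)) (χ : ℍ → ℝ≥0∞) (τ : ℍ) :
    ∑' δ : ((Γ' : Subgroup (GL (Fin 2) ℝ)) : Subgroup (GL (Fin 2) ℝ)),
        χ ((δ : GL (Fin 2) ℝ) • τ) = ∑' γ : Γ', χ ((γ : SL(2, ℤ)) • τ) := by
  rw [← (Subgroup.equivMapOfInjective Γ' (mapGL ℝ : SL(2, ℤ) →* GL (Fin 2) ℝ)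
    mapGL_injective).toEquiv.tsum_eq]
  rfl

/-- The sum over `𝒮ℒ` is the sum over `SL(2, ℤ)`. -/
theorem tsum_SL_eq (χ : ℍ → ℝ≥0∞) (τ : ℍ) :
    ∑' δ : (𝒮ℒ : Subgroup (GL (Fin 2) ℝ)), χ ((δ : GL (Fin 2) ℝ) • τ)
      = ∑' γ : SL(2, ℤ), χ (γ • τ) := by
  rw [← (MonoidHom.ofInjective (f := (mapGL ℝ : SL(2, ℤ) →* GL (Fin 2) ℝ))
    mapGL_injective).toEquiv.tsum_eq]
  rfl

theorem isWeight_map_iff (Γ' : Subgroup SL(2, ℤ)) (χ : ℍ → ℝ≥0∞) :
    IsWeight (Γ' : Subgroup (GL (Fin 2) ℝ)) χ ↔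
      Measurable χ ∧ ∀ τ, ∑' γ : Γ', χ ((γ : SL(2, ℤ)) • τ) = 1 := by
  constructor
  · intro h
    exact ⟨h.measurable, fun τ => by rw [← tsum_map_eq]; exact h.tsum_eq_one τ⟩
  · rintro ⟨hm, h⟩
    exact ⟨hm, fun τ => by rw [tsum_map_eq]; exact h τ⟩

theorem isWeight_SL_iff (χ : ℍ → ℝ≥0∞) :
    IsWeight (𝒮ℒ : Subgroup (GL (Fin 2) ℝ)) χ ↔
      Measurable χ ∧ ∀ τ, ∑' γ : SL(2, ℤ), χ (γ • τ) = 1 := by
  constructor
  · intro h
    exact ⟨h.measurable, fun τ => by rw [← tsum_SL_eq]; exact h.tsum_eq_one τ⟩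
  · rintro ⟨hm, h⟩
    exact ⟨hm, fun τ => by rw [tsum_SL_eq]; exact h τ⟩

/-- helper2's `chi0` is a weight for the modular group. -/
theorem isWeight_chi0 : IsWeight (𝒮ℒ : Subgroup (GL (Fin 2) ℝ)) PetFD.chi0 :=
  (isWeight_SL_iff _).mpr ⟨PetFD.measurable_chi0, PetFD.tsum_chi0⟩

end Converters

section Existence

/-- **Every arithmetic group has a weight of finite mass.** -/
theorem exists_isWeight (Γ : Subgroup (GL (Fin 2) ℝ)) [Γ.IsArithmetic] :
    ∃ χ : ℍ → ℝ≥0∞, IsWeight Γ χ ∧ ∫⁻ τ, χ τ < ⊤ := by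
  obtain ⟨χ, hχ, hfin⟩ := PetUnfold.exists_isWeight_of_commensurable
    (μ := (volume : Measure ℍ)) (Subgroup.IsArithmetic.is_commensurable (𝒢 := Γ)) isWeight_chi0
    PetFD.lintegral_chi0_lt_top.ne
  exact ⟨χ, hχ, hfin.lt_top⟩

/-- A chosen weight of finite mass of the arithmetic group `Γ`. -/
def weightOf (Γ : Subgroup (GL (Fin 2) ℝ)) [Γ.IsArithmetic] : ℍ → ℝ≥0∞ :=
  Classical.choose (exists_isWeight Γ)

theorem isWeight_weightOf (Γ : Subgroup (GL (Fin 2) ℝ)) [Γ.IsArithmetic] :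
    IsWeight Γ (weightOf Γ) :=
  (Classical.choose_spec (exists_isWeight Γ)).1

theorem measurable_weightOf (Γ : Subgroup (GL (Fin 2) ℝ)) [Γ.IsArithmetic] :
    Measurable (weightOf Γ) :=
  (isWeight_weightOf Γ).measurable

theorem lintegral_weightOf_lt_top (Γ : Subgroup (GL (Fin 2) ℝ)) [Γ.IsArithmetic] :
    ∫⁻ τ, weightOf Γ τ < ⊤ :=
  (Classical.choose_spec (exists_isWeight Γ)).2

end Existence

section Form

variable (Γ : Subgroup (GL (Fin 2) ℝ)) [Γ.IsArithmetic] {k : ℤ} {χ : ℍ → ℝ≥0∞}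

/-- The Petersson form on cusp forms of level `Γ`, defined from the weight `χ`. -/
def petForm (k : ℤ) (χ : ℍ → ℝ≥0∞) (f g : CuspForm Γ k) : ℂ := pet k χ f g

omit [Γ.IsArithmetic] in
theorem petForm_def (f g : CuspForm Γ k) : petForm Γ k χ f g = pet k χ f g := rfl

theorem petForm_add_left (hχm : Measurable χ) (hχfin : ∫⁻ τ, χ τ < ⊤) (f g h : CuspForm Γ k) :
    petForm Γ k χ (f + g) h = petForm Γ k χ f h + petForm Γ k χ g h := by
  unfold petForm
  rw [FunLike.coe_add]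
  exact pet_add_left Γ hχm hχfin f g h

theorem petForm_add_right (hχm : Measurable χ) (hχfin : ∫⁻ τ, χ τ < ⊤) (f g h : CuspForm Γ k) :
    petForm Γ k χ f (g + h) = petForm Γ k χ f g + petForm Γ k χ f h := by
  unfold petForm
  rw [FunLike.coe_add]
  exact pet_add_right Γ hχm hχfin f g h

omit [Γ.IsArithmetic] in
theorem petForm_smul_right [Γ.HasDetOne] (c : ℂ) (f g : CuspForm Γ k) :
    petForm Γ k χ f (c • g) = c * petForm Γ k χ f g := by
  unfold petForm
  rw [FunLike.coe_smul]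
  exact pet_smul_right c f g

omit [Γ.IsArithmetic] in
theorem petForm_smul_left [Γ.HasDetOne] (c : ℂ) (f g : CuspForm Γ k) :
    petForm Γ k χ (c • f) g = conj c * petForm Γ k χ f g := by
  unfold petForm
  rw [FunLike.coe_smul]
  exact pet_smul_left c f g

omit [Γ.IsArithmetic] in
theorem petForm_conj_symm (f g : CuspForm Γ k) :
    petForm Γ k χ g f = conj (petForm Γ k χ f g) :=
  pet_conj_symm f g

/-- **Definiteness** of the Petersson form. -/
theorem petForm_self_eq_zero (hχ : IsWeight Γ χ) (hχfin : ∫⁻ τ, χ τ < ⊤) (f : CuspForm Γ k)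
    (h0 : petForm Γ k χ f f = 0) : f = 0 :=
  DFunLike.ext _ _ fun τ => eq_zero_of_pet_self_eq_zero Γ hχ hχfin f h0 τ

/-- **Independence of the weight.** -/
theorem petForm_eq_of_isWeight [Γ.HasDetOne] {χ₁ χ₂ : ℍ → ℝ≥0∞} (h₁ : IsWeight Γ χ₁)
    (h₂ : IsWeight Γ χ₂) (hfin₁ : ∫⁻ τ, χ₁ τ < ⊤) (hfin₂ : ∫⁻ τ, χ₂ τ < ⊤) (f g : CuspForm Γ k) :
    petForm Γ k χ₁ f g = petForm Γ k χ₂ f g :=
  pet_eq_of_isWeight Γ h₁ h₂ hfin₁ hfin₂ f g

/-- **The Petersson form of an arithmetic group** (with the chosen weight `weightOf Γ`). -/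
def petArith (k : ℤ) (f g : CuspForm Γ k) : ℂ := petForm Γ k (weightOf Γ) f g

theorem petArith_def (f g : CuspForm Γ k) :
    petArith Γ k f g = ∫ τ, petersson k f g τ * (((weightOf Γ) τ).toReal : ℂ) := rfl

theorem petArith_add_left (f g h : CuspForm Γ k) :
    petArith Γ k (f + g) h = petArith Γ k f h + petArith Γ k g h :=
  petForm_add_left Γ (measurable_weightOf Γ) (lintegral_weightOf_lt_top Γ) f g h

theorem petArith_add_right (f g h : CuspForm Γ k) :
    petArith Γ k f (g + h) = petArith Γ k f g + petArith Γ k f h :=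
  petForm_add_right Γ (measurable_weightOf Γ) (lintegral_weightOf_lt_top Γ) f g h

theorem petArith_smul_right [Γ.HasDetOne] (c : ℂ) (f g : CuspForm Γ k) :
    petArith Γ k f (c • g) = c * petArith Γ k f g :=
  petForm_smul_right Γ c f g

theorem petArith_smul_left [Γ.HasDetOne] (c : ℂ) (f g : CuspForm Γ k) :
    petArith Γ k (c • f) g = conj c * petArith Γ k f g :=
  petForm_smul_left Γ c f g

theorem petArith_conj_symm (f g : CuspForm Γ k) :
    petArith Γ k g f = conj (petArith Γ k f g) :=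
  petForm_conj_symm Γ f g

/-- **Definiteness.** -/
theorem petArith_self_eq_zero (f : CuspForm Γ k) (h0 : petArith Γ k f f = 0) : f = 0 :=
  petForm_self_eq_zero Γ (isWeight_weightOf Γ) (lintegral_weightOf_lt_top Γ) f h0

/-- Any weight of finite mass computes the Petersson form (for `Γ` of determinant one). -/
theorem petArith_eq_pet [Γ.HasDetOne] (hχ : IsWeight Γ χ) (hχfin : ∫⁻ τ, χ τ < ⊤)
    (f g : CuspForm Γ k) : petArith Γ k f g = pet k χ f g :=
  petForm_eq_of_isWeight Γ (isWeight_weightOf Γ) hχ (lintegral_weightOf_lt_top Γ) hχfin f g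

end Form

end Fermat.Agent.FF3.PetIP
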